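import Fermat.Agent.LT.T6.H385.DescSpec
import Fermat.Agent.LT.H129.HenselQuad
import Fermat.Agent.LT.T6.H965.Cover

/-!
# Row LT, tower T6, sub-leaf T6.18i.6d `H385.PropBaseC385` (helper665) -- OFF-MAIN

`propBaseC665 : H385.PropBaseC385` (VERBATIM, unconditional): properness of the twisted orbit map
`x ↦ x⁻¹ δ₀ σ(x)` at `δ₀ = [[0, z], [1, 0]]` modulo the twisted centraliser `D^×`.

Proof.  `g₀ = x⁻¹ δ₀ σ(x)` satisfies `g₀ σ(g₀) = z`.  With `g₀ = [[p, r], [t, u]]`: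
`p σ(p) + r σ(t) = z`, `t σ(p) + u σ(t) = 0`, so `y = [[1, p], [0, t]]` satisfies
`g₀ σ(y) = y δ₀` and `x y ∈ D^×`.  `z` is not a norm, squares near `1` are norms (Hensel,
asset of helper129), so `|N p - z| > exp(-N₀) |z|`: `t` is bounded from below on `F U'(n)`.
The matrices `y⁻¹ = [[1, -p/t], [0, 1/t]]` lie in finitely many cosets `x₀ U'(n)` (finite nets
of balls: asset of helper965).

Imports: `T6/H385/DescSpec.lean` (helper385), `H129/HenselQuad.lean` (helper129),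
`T6/H965/Cover.lean` (helper965), byte-identical copies.
-/

set_option autoImplicit false

open scoped Matrix

noncomputable section

namespace Fermat.Agent.LT.T6.H665

open Fermat.Agent.LT.T6 Fermat.Agent.LT.T6.H783 Fermat.Agent.LT.T6.H385

/-! ## 1. Valuations -/

section Val

variable {k : Type} [Field k] [Valued k Γ₀]

/-- Squares near `1` (Hensel). -/
theorem sq_near_one665 [CompleteSpace k] [CharZero k] :
    ∃ N₀ : ℤ, 1 ≤ N₀ ∧ ∀ t : k, Valued.v (t - 1) ≤ WithZero.exp (-N₀) → ∃ r : k, r ^ 2 = t := by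
  have h2 : (2 : k) ≠ 0 := two_ne_zero
  have hv2 : Valued.v (2 : k) ≠ 0 := (Valuation.ne_zero_iff _).2 h2
  refine ⟨max 1 (1 - 2 * WithZero.log (Valued.v (2 : k))), le_max_left _ _, fun t ht => ?_⟩
  have hlt : Valued.v ((1 : k) ^ 2 - 0 * 1 + (-t)) < Valued.v (2 * (1 : k) - 0) ^ 2 := by
    have e1 : (1 : k) ^ 2 - 0 * 1 + (-t) = -(t - 1) := by ring
    have e2 : 2 * (1 : k) - 0 = 2 := by ring
    rw [e1, e2, Valuation.map_neg]
    refine lt_of_le_of_lt ht ?_
    have e3 : Valued.v (2 : k) ^ 2 = WithZero.exp (2 * WithZero.log (Valued.v (2 : k))) := by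
      conv_lhs => rw [← WithZero.exp_log hv2]
      rw [pow_two, ← WithZero.exp_add]
      congr 1
      ring
    rw [e3, WithZero.exp_lt_exp]
    have := le_max_right (1 : ℤ) (1 - 2 * WithZero.log (Valued.v (2 : k)))
    omega
  obtain ⟨x, hx, -⟩ := Fermat.Agent.LT.H129.hensel_quad129 0 (-t) 1 hlt
  exact ⟨x, by linear_combination hx⟩

/-- A finite set is bounded. -/
theorem exists_bound665 (S : Finset k) :
    ∃ B : ℤ, 0 ≤ B ∧ ∀ x ∈ S, Valued.v x ≤ WithZero.exp B := by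
  classical
  induction S using Finset.induction_on with
  | empty => exact ⟨0, le_rfl, by simp⟩
  | insert a S _ ih =>
    obtain ⟨B, hB0, hB⟩ := ih
    rcases eq_or_ne (Valued.v a) 0 with h0 | h0
    · refine ⟨B, hB0, fun x hx => ?_⟩
      rcases Finset.mem_insert.1 hx with rfl | hx
      · rw [h0]; exact zero_le
      · exact hB x hx
    · refine ⟨max B (WithZero.log (Valued.v a)), le_max_of_le_left hB0, fun x hx => ?_⟩
      rcases Finset.mem_insert.1 hx with rfl | hx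
      · conv_lhs => rw [← WithZero.exp_log h0]
        exact WithZero.exp_le_exp.2 (le_max_right _ _)
      · exact (hB x hx).trans (WithZero.exp_le_exp.2 (le_max_left _ _))

/-- The entries of the elements of a finite subset of `GL₂` are bounded. -/
theorem exists_entry_bound665 (F : Finset (GL (Fin 2) k)) :
    ∃ B : ℤ, 0 ≤ B ∧ ∀ f ∈ F, ∀ a b : Fin 2,
      Valued.v ((f : Matrix (Fin 2) (Fin 2) k) a b) ≤ WithZero.exp B := by
  classical
  obtain ⟨B, hB0, hB⟩ := exists_bound665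
    (F.biUnion fun f => (Finset.univ : Finset (Fin 2 × Fin 2)).image
      fun p => (f : Matrix (Fin 2) (Fin 2) k) p.1 p.2)
  refine ⟨B, hB0, fun f hf a b => hB _ ?_⟩
  exact Finset.mem_biUnion.2 ⟨f, hf, Finset.mem_image.2 ⟨(a, b), Finset.mem_univ _, rfl⟩⟩

theorem exp_neg_nat_le_one665 (n : ℕ) : WithZero.exp (-(n : ℤ)) ≤ (1 : Γ₀) := by
  rw [← WithZero.exp_zero, WithZero.exp_le_exp]
  omega

/-- The entries of an element of `U(n)` are integral. -/
theorem inU_entry_le665 {n : ℕ} {u : GL (Fin 2) k} (hu : InU n u) (a b : Fin 2) :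
    Valued.v ((u : Matrix (Fin 2) (Fin 2) k) a b) ≤ 1 := by
  have h := (hu a b).1
  have h1 : Valued.v ((1 : Matrix (Fin 2) (Fin 2) k) a b) ≤ 1 := by
    by_cases hab : a = b
    · subst hab; simp
    · simp [Matrix.one_apply_ne hab]
  have e : (u : Matrix (Fin 2) (Fin 2) k) a b
      = ((u : Matrix (Fin 2) (Fin 2) k) a b - (1 : Matrix (Fin 2) (Fin 2) k) a b)
        + (1 : Matrix (Fin 2) (Fin 2) k) a b := by ring
  rw [e]
  exact (Valuation.map_add _ _ _).trans (max_le (h.trans (exp_neg_nat_le_one665 n)) h1)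

/-- The entries of `f u`, `u ∈ U(n)`, are bounded by the entries of `f`. -/
theorem entry_mul_le665 {n : ℕ} {f u : GL (Fin 2) k} (hu : InU n u) {B : ℤ}
    (hf : ∀ a b, Valued.v ((f : Matrix (Fin 2) (Fin 2) k) a b) ≤ WithZero.exp B) (a b : Fin 2) :
    Valued.v (((f * u : GL (Fin 2) k) : Matrix (Fin 2) (Fin 2) k) a b) ≤ WithZero.exp B := by
  rw [Units.val_mul, Matrix.mul_apply, Fin.sum_univ_two]
  refine (Valuation.map_add _ _ _).trans (max_le ?_ ?_)
  · rw [map_mul]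
    calc Valued.v ((f : Matrix (Fin 2) (Fin 2) k) a 0) * Valued.v ((u : Matrix (Fin 2) (Fin 2) k) 0 b)
        ≤ WithZero.exp B * 1 := mul_le_mul' (hf a 0) (inU_entry_le665 hu 0 b)
      _ = WithZero.exp B := mul_one _
  · rw [map_mul]
    calc Valued.v ((f : Matrix (Fin 2) (Fin 2) k) a 1) * Valued.v ((u : Matrix (Fin 2) (Fin 2) k) 1 b)
        ≤ WithZero.exp B * 1 := mul_le_mul' (hf a 1) (inU_entry_le665 hu 1 b)
      _ = WithZero.exp B := mul_one _

end Val

/-! ## 2. The upper triangular matrices `[[1, a], [0, b]]` -/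

section Up

variable {k : Type} [Field k]

/-- `[[1, a], [0, b]]`, `b ≠ 0`. -/
def up665 (a b : k) (hb : b ≠ 0) : GL (Fin 2) k :=
  Matrix.GeneralLinearGroup.mkOfDetNeZero !![1, a; 0, b]
    (by rw [Matrix.det_fin_two_of]; simpa using hb)

theorem up_coe665 (a b : k) (hb : b ≠ 0) :
    ((up665 a b hb : GL (Fin 2) k) : Matrix (Fin 2) (Fin 2) k) = !![1, a; 0, b] := rfl

theorem up_mul665 (a b a' b' : k) (hb : b ≠ 0) (hb' : b' ≠ 0) :
    up665 a b hb * up665 a' b' hb' = up665 (a' + a * b') (b * b') (mul_ne_zero hb hb') := by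
  apply Units.ext
  rw [Units.val_mul, up_coe665, up_coe665, up_coe665]
  ext x y
  fin_cases x <;> fin_cases y <;> simp [Matrix.mul_apply, Fin.sum_univ_two]

theorem up_one665 : up665 (0 : k) 1 one_ne_zero = 1 := by
  apply Units.ext
  rw [up_coe665, Units.val_one]
  ext x y
  fin_cases x <;> fin_cases y <;> simp

theorem up_congr665 {a b a' b' : k} (hb : b ≠ 0) (hb' : b' ≠ 0) (ha : a = a') (hbb : b = b') :
    up665 a b hb = up665 a' b' hb' := by
  subst ha; subst hbb; rfl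

theorem up_inv665 (a b : k) (hb : b ≠ 0) :
    (up665 a b hb)⁻¹ = up665 (-a / b) (1 / b) (one_div_ne_zero hb) := by
  rw [inv_eq_iff_mul_eq_one, up_mul665, ← up_one665]
  apply up_congr665
  · field_simp; ring
  · field_simp

theorem up_sub_one665 (a b : k) (hb : b ≠ 0) (x y : Fin 2) :
    ((up665 a b hb : GL (Fin 2) k) : Matrix (Fin 2) (Fin 2) k) x y
      - (1 : Matrix (Fin 2) (Fin 2) k) x y
      = (!![0, a; 0, b - 1] : Matrix (Fin 2) (Fin 2) k) x y := by
  rw [up_coe665]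
  fin_cases x <;> fin_cases y <;> simp

end Up

section UpVal

variable {k : Type} [Field k] [Valued k Γ₀]

theorem small_entries665 (n : ℕ) (a c : k) (ha : Valued.v a ≤ WithZero.exp (-(n : ℤ)))
    (hc : Valued.v c ≤ WithZero.exp (-(n : ℤ))) (x y : Fin 2) :
    Valued.v ((!![0, a; 0, c] : Matrix (Fin 2) (Fin 2) k) x y) ≤ WithZero.exp (-(n : ℤ)) := by
  have h0 : Valued.v (0 : k) ≤ WithZero.exp (-(n : ℤ)) := by rw [map_zero]; exact zero_le
  fin_cases x <;> fin_cases y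
  · exact h0
  · exact ha
  · exact h0
  · exact hc

/-- `[[1, a], [0, b]] ∈ U(n)` if `a` and `b - 1` are small and `b` is a unit. -/
theorem up_inU665 (n : ℕ) (a b : k) (hb : b ≠ 0) (ha : Valued.v a ≤ WithZero.exp (-(n : ℤ)))
    (hb1 : Valued.v (b - 1) ≤ WithZero.exp (-(n : ℤ))) (hbu : Valued.v b = 1) :
    InU n (up665 a b hb) := by
  have hinv : Valued.v (1 / b - 1) ≤ WithZero.exp (-(n : ℤ)) := by
    have e : 1 / b - 1 = -(b - 1) / b := by field_simp; ring
    rw [e, map_div₀, Valuation.map_neg, hbu, div_one]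
    exact hb1
  have hainv : Valued.v (-a / b) ≤ WithZero.exp (-(n : ℤ)) := by
    rw [map_div₀, Valuation.map_neg, hbu, div_one]
    exact ha
  intro x y
  constructor
  · rw [up_sub_one665]
    exact small_entries665 n a (b - 1) ha hb1 x y
  · rw [up_inv665, up_sub_one665]
    exact small_entries665 n (-a / b) (1 / b - 1) hainv hinv x y

end UpVal

/-! ## 3. Algebra: the frame `y = [[1, p], [0, t]]` -/

section Alg

variable {k' : Type} [Field k']

theorem glAut_coe665 (s : k' ≃+* k') (g : GL (Fin 2) k') :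
    ((glAut s g : GL (Fin 2) k') : Matrix (Fin 2) (Fin 2) k')
      = (g : Matrix (Fin 2) (Fin 2) k').map s := rfl

theorem glAut_glAut665 (s : k' ≃+* k') (h2 : ∀ y, s (s y) = y) (g : GL (Fin 2) k') :
    glAut s (glAut s g) = g := by
  apply Units.ext
  ext a b
  simp [glAut_coe665, h2]

/-- `g₀ σ(g₀) = c` for `g₀ = x⁻¹ δ₀ σ(x)`, `δ₀ = [[0, c], [1, 0]]`, `σ c = c`, `σ² = 1`. -/
theorem base_norm665 (s : k' ≃+* k') (h2 : ∀ y, s (s y) = y) (c : k') (hc : s c = c)
    (δ₀ x : GL (Fin 2) k') (hδ : IsQuatBase385 c δ₀) :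
    ((x⁻¹ * δ₀ * glAut s x : GL (Fin 2) k') : Matrix (Fin 2) (Fin 2) k')
      * ((x⁻¹ * δ₀ * glAut s x : GL (Fin 2) k') : Matrix (Fin 2) (Fin 2) k').map s
      = c • (1 : Matrix (Fin 2) (Fin 2) k') := by
  have h1 : (x⁻¹ * δ₀ * glAut s x) * glAut s (x⁻¹ * δ₀ * glAut s x)
      = x⁻¹ * (δ₀ * glAut s δ₀) * x := by
    simp only [map_mul, map_inv, glAut_glAut665 s h2]
    group
  have h3 : ((δ₀ * glAut s δ₀ : GL (Fin 2) k') : Matrix (Fin 2) (Fin 2) k')
      = c • (1 : Matrix (Fin 2) (Fin 2) k') := by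
    have hδ' : (δ₀ : Matrix (Fin 2) (Fin 2) k') = !![0, c; 1, 0] := hδ
    rw [Units.val_mul, glAut_coe665, hδ']
    ext a b
    fin_cases a <;> fin_cases b <;> simp [Matrix.mul_apply, Fin.sum_univ_two, hc]
  rw [← glAut_coe665, ← Units.val_mul, h1, Units.val_mul, Units.val_mul, h3,
    Matrix.mul_smul, Matrix.mul_one, Matrix.smul_mul, ← Units.val_mul, inv_mul_cancel,
    Units.val_one]

/-- The frame: `g₀ σ(y) = y δ₀` for `y = [[1, p], [0, t]]`, the first column of `g₀` being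
`(p, t)`. -/
theorem frame665 (s : k' ≃+* k') (c : k') (g₀ δ₀ : GL (Fin 2) k') (hδ : IsQuatBase385 c δ₀)
    (hg : (g₀ : Matrix (Fin 2) (Fin 2) k') * (g₀ : Matrix (Fin 2) (Fin 2) k').map s
      = c • (1 : Matrix (Fin 2) (Fin 2) k'))
    (ht : (g₀ : Matrix (Fin 2) (Fin 2) k') 1 0 ≠ 0) :
    g₀ * glAut s (up665 ((g₀ : Matrix (Fin 2) (Fin 2) k') 0 0)
        ((g₀ : Matrix (Fin 2) (Fin 2) k') 1 0) ht)
      = up665 ((g₀ : Matrix (Fin 2) (Fin 2) k') 0 0)
        ((g₀ : Matrix (Fin 2) (Fin 2) k') 1 0) ht * δ₀ := by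
  have h00 := congrFun (congrFun hg 0) 0
  have h10 := congrFun (congrFun hg 1) 0
  simp only [Matrix.mul_apply, Fin.sum_univ_two, Matrix.map_apply, Matrix.smul_apply,
    Matrix.one_apply_eq, smul_eq_mul, mul_one] at h00
  simp only [Matrix.mul_apply, Fin.sum_univ_two, Matrix.map_apply, Matrix.smul_apply,
    smul_eq_mul] at h10
  have h10' : (g₀ : Matrix (Fin 2) (Fin 2) k') 1 0 * s ((g₀ : Matrix (Fin 2) (Fin 2) k') 0 0)
      + (g₀ : Matrix (Fin 2) (Fin 2) k') 1 1 * s ((g₀ : Matrix (Fin 2) (Fin 2) k') 1 0) = 0 := by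
    rw [h10]
    simp
  have hδ' : (δ₀ : Matrix (Fin 2) (Fin 2) k') = !![0, c; 1, 0] := hδ
  apply Units.ext
  rw [Units.val_mul, Units.val_mul, glAut_coe665, up_coe665, hδ']
  ext a b
  fin_cases a <;> fin_cases b <;>
    simp [Matrix.mul_apply, Fin.sum_univ_two, h00, h10']

/-- `x y` lies in the twisted centraliser of `δ₀` if `g₀ σ(y) = y δ₀`, `g₀ = x⁻¹ δ₀ σ(x)`. -/
theorem inTwCent_of_frame665 (s : k' ≃+* k') (δ₀ x y : GL (Fin 2) k')
    (hy : (x⁻¹ * δ₀ * glAut s x) * glAut s y = y * δ₀) : InTwCent s δ₀ (x * y) := by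
  unfold InTwCent
  rw [map_mul]
  calc (x * y)⁻¹ * δ₀ * (glAut s x * glAut s y)
      = y⁻¹ * ((x⁻¹ * δ₀ * glAut s x) * glAut s y) := by group
    _ = y⁻¹ * (y * δ₀) := by rw [hy]
    _ = δ₀ := by group

end Alg

/-! ## 4. Norms stay away from a non-norm -/

section Far

variable {k k' : Type} [Field k] [Field k'] [Valued k Γ₀]

/-- If `z` is not a norm and the elements of `1 + ϖ^{N₀} 𝒪` are squares, then
`|N p - z| > exp(-N₀) |z|` for every `p`. -/
theorem norm_far665 (i : k →+* k') (s : k' ≃+* k') (hfix : ∀ x : k, s (i x) = i x)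
    (z : k) (hz : z ≠ 0) (hnn : ¬ IsFieldNorm783 2 i s z)
    (N₀ : ℤ) (hN₀ : 1 ≤ N₀)
    (hsq : ∀ t : k, Valued.v (t - 1) ≤ WithZero.exp (-N₀) → ∃ r : k, r ^ 2 = t)
    (p : k') (A : k) (hA : i A = p * s p) :
    WithZero.exp (-N₀) * Valued.v z < Valued.v (A - z) := by
  by_contra hcon
  rw [not_lt] at hcon
  have hvz : Valued.v z ≠ 0 := (Valuation.ne_zero_iff _).2 hz
  have ht : Valued.v (A / z - 1) ≤ WithZero.exp (-N₀) := by
    have e : A / z - 1 = (A - z) / z := by field_simp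
    rw [e, map_div₀, div_le_iff₀ (zero_lt_iff.2 hvz)]
    exact hcon
  obtain ⟨r, hr⟩ := hsq _ ht
  have ht1 : Valued.v (A / z - 1) < 1 := by
    refine lt_of_le_of_lt ht ?_
    rw [← WithZero.exp_zero, WithZero.exp_lt_exp]
    omega
  have hvt : Valued.v (A / z) = 1 := by
    have := Valuation.map_one_add_of_lt (v := (Valued.v : Valuation k Γ₀)) ht1
    rwa [add_sub_cancel] at this
  have hr0 : r ≠ 0 := by
    rintro rfl
    rw [zero_pow two_ne_zero] at hr
    rw [← hr, map_zero] at hvt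
    exact zero_ne_one hvt
  have hir0 : i r ≠ 0 := (map_ne_zero i).2 hr0
  have hAeq : A = r ^ 2 * z := by
    rw [hr]
    field_simp
  apply hnn
  refine ⟨p / i r, ?_⟩
  rw [Finset.prod_range_succ, Finset.prod_range_one, pow_zero, pow_one]
  have e1 : (1 : k' ≃+* k') (p / i r) = p / i r := rfl
  rw [e1, map_div₀, hfix]
  have hiA : p * s p = (i r) ^ 2 * i z := by
    rw [← hA, hAeq, map_mul, map_pow]
  field_simp
  rw [hiA]
  ring

end Far

/-! ## 5. The leaf -/

section Main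

variable {k : Type} [Field k] [Valued k Γ₀]

theorem val_mul_le665 {x y : k} {A B : ℤ} (hx : Valued.v x ≤ WithZero.exp A)
    (hy : Valued.v y ≤ WithZero.exp B) : Valued.v (x * y) ≤ WithZero.exp (A + B) := by
  rw [map_mul, WithZero.exp_add]
  exact mul_le_mul' hx hy

theorem val_inv_le665 {x : k} {A : ℤ} (hx : WithZero.exp A ≤ Valued.v x) :
    Valued.v x⁻¹ ≤ WithZero.exp (-A) := by
  have hpos : (0 : Γ₀) < WithZero.exp A := zero_lt_iff.2 WithZero.exp_ne_zero
  rw [map_inv₀, WithZero.exp_neg]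
  exact inv_anti₀ hpos hx

theorem val_le_of_le665 {x : k} {A B : ℤ} (hx : Valued.v x ≤ WithZero.exp A) (hAB : A ≤ B) :
    Valued.v x ≤ WithZero.exp B :=
  hx.trans (WithZero.exp_le_exp.2 hAB)

end Main

/-- **T6.18i.6d `PropBaseC385`** (VERBATIM): properness of the twisted orbit map at `δ₀`. -/
theorem propBaseC665 : PropBaseC385 := by
  intro k k' _ _ _ _ q e i s hq z hz hnn n δ₀ hδ F
  classical
  have hfix := hq.ext.cyc.fix_i
  have h2 : ∀ y, s (s y) = y := fun y => by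
    have := hq.ext.cyc.order y
    rwa [pow_two] at this
  have hfixed := hq.ext.cyc.fixed
  have hvi := hq.ext.val_i
  have hvs := hq.ext.val_s
  have he := hq.ext.e_pos
  have hcomp : CompleteSpace k := hq.hk.complete
  have hchar : CharZero k := hq.hk.char0
  obtain ⟨N₀, hN₀, hsq⟩ := sq_near_one665 (k := k)
  obtain ⟨B, hB0, hB⟩ := exists_entry_bound665 F
  have hvz : Valued.v z ≠ 0 := (Valuation.ne_zero_iff _).2 hz
  -- `exp(-L) = (exp(-N₀) |z|)^e`
  obtain ⟨L, hL⟩ : ∃ L : ℤ, (WithZero.exp (-N₀) * Valued.v z) ^ e = WithZero.exp (-L) := by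
    refine ⟨-((e : ℤ) * (-N₀ + WithZero.log (Valued.v z))), ?_⟩
    conv_lhs => rw [← WithZero.exp_log hvz, ← WithZero.exp_add, ← WithZero.exp_nsmul]
    congr 1
    simp
  set B₁ : ℤ := max 0 (L + B) with hB₁
  have hB₁0 : 0 ≤ B₁ := le_max_left _ _
  have hB₁L : L + B ≤ B₁ := le_max_right _ _
  set M : ℤ := n + 2 * B + B₁ + 1 with hM
  obtain ⟨Sa, hSa⟩ := H965.net_ball965 hq.hk' (B + B₁) M
  obtain ⟨Sb, hSb⟩ := H965.net_ball965 hq.hk' B₁ M
  refine ⟨(Sa ×ˢ Sb).image (fun ab => if h : ab.2 ≠ 0 then up665 ab.1 ab.2 h else 1), ?_⟩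
  intro x hx
  obtain ⟨f, hf, u, hu, hg⟩ := hx
  obtain ⟨g₀, hg₀⟩ : ∃ g₀ : GL (Fin 2) k', g₀ = x⁻¹ * δ₀ * glAut s x := ⟨_, rfl⟩
  rw [← hg₀] at hg
  have hent : ∀ a b, Valued.v ((g₀ : Matrix (Fin 2) (Fin 2) k') a b) ≤ WithZero.exp B := by
    intro a b
    rw [hg]
    exact entry_mul_le665 hu (hB f hf) a b
  have hnorm : (g₀ : Matrix (Fin 2) (Fin 2) k') * (g₀ : Matrix (Fin 2) (Fin 2) k').map s
      = (i z) • (1 : Matrix (Fin 2) (Fin 2) k') := by
    rw [hg₀]
    exact base_norm665 s h2 (i z) (hfix z) δ₀ x hδ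
  -- the entries
  set p : k' := (g₀ : Matrix (Fin 2) (Fin 2) k') 0 0 with hp
  set r : k' := (g₀ : Matrix (Fin 2) (Fin 2) k') 0 1 with hr
  set t : k' := (g₀ : Matrix (Fin 2) (Fin 2) k') 1 0 with ht
  have h00 : p * s p + r * s t = i z := by
    have h := congrFun (congrFun hnorm 0) 0
    simpa [Matrix.mul_apply, Fin.sum_univ_two] using h
  obtain ⟨A, hA⟩ := hfixed (p * s p) (by rw [map_mul, h2, mul_comm])
  have hfar := norm_far665 i s hfix z hz hnn N₀ hN₀ hsq p A hA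
  have hiAz : i (A - z) = -(r * s t) := by
    rw [map_sub, hA, ← h00]
    ring
  -- `|r σ(t)| > exp(-L)`
  have hrt : WithZero.exp (-L) < Valued.v r * Valued.v t := by
    have h1 : Valued.v (i (A - z)) = Valued.v r * Valued.v t := by
      rw [hiAz, Valuation.map_neg, map_mul, hvs]
    rw [← h1, hvi, ← hL]
    exact pow_lt_pow_left₀ hfar zero_le (Nat.pos_iff_ne_zero.1 he)
  have hrB : Valued.v r ≤ WithZero.exp B := hent 0 1
  have hpB : Valued.v p ≤ WithZero.exp B := hent 0 0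
  have htB : Valued.v t ≤ WithZero.exp B := hent 1 0
  -- `|t| ≥ exp(-B₁)`
  have htlow : WithZero.exp (-B₁) ≤ Valued.v t := by
    by_contra hcon
    rw [not_le] at hcon
    have h1 : Valued.v r * Valued.v t ≤ WithZero.exp B * WithZero.exp (-B₁) :=
      mul_le_mul' hrB hcon.le
    rw [← WithZero.exp_add] at h1
    have h3 := lt_of_lt_of_le hrt h1
    rw [WithZero.exp_lt_exp] at h3
    omega
  have htv0 : Valued.v t ≠ 0 := by
    intro h0
    rw [h0] at htlow
    exact WithZero.exp_ne_zero (le_antisymm htlow zero_le)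
  have ht0 : t ≠ 0 := (Valuation.ne_zero_iff _).1 htv0
  -- `a = -p/t`, `b = 1/t`
  have hbne : (1 / t : k') ≠ 0 := one_div_ne_zero ht0
  have hyinv : (up665 p t ht0)⁻¹ = up665 (-p / t) (1 / t) hbne := up_inv665 p t ht0
  have hva : Valued.v (-p / t) ≤ WithZero.exp (B + B₁) := by
    rw [div_eq_mul_inv]
    refine val_mul_le665 (by rw [Valuation.map_neg]; exact hpB) ?_
    have := val_inv_le665 htlow
    rwa [neg_neg] at this
  have hvb : Valued.v (1 / t) ≤ WithZero.exp B₁ := by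
    rw [one_div]
    have := val_inv_le665 htlow
    rwa [neg_neg] at this
  have hvblow : WithZero.exp (-B) ≤ Valued.v (1 / t) := by
    rw [one_div, map_inv₀, WithZero.exp_neg]
    exact inv_anti₀ (zero_lt_iff.2 htv0) htB
  obtain ⟨a₀, ha₀S, ha₀⟩ := hSa (-p / t) hva
  obtain ⟨b₀, hb₀S, hb₀⟩ := hSb (1 / t) hvb
  -- `|b₀| = |b|`
  have hb₀v : Valued.v b₀ = Valued.v (1 / t) := by
    have hlt : Valued.v (1 / t - b₀) < Valued.v (1 / t) := by
      refine lt_of_le_of_lt hb₀ (lt_of_lt_of_le ?_ hvblow)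
      rw [WithZero.exp_lt_exp]
      omega
    have e : b₀ = 1 / t - (1 / t - b₀) := by ring
    rw [e]
    exact Valuation.map_sub_eq_of_lt_left _ hlt
  have hb₀v0 : Valued.v b₀ ≠ 0 := by
    rw [hb₀v]
    exact (Valuation.ne_zero_iff _).2 hbne
  have hb₀0 : b₀ ≠ 0 := (Valuation.ne_zero_iff _).1 hb₀v0
  have hb₀low : WithZero.exp (-B) ≤ Valued.v b₀ := by rw [hb₀v]; exact hvblow
  have hb₀inv : Valued.v b₀⁻¹ ≤ WithZero.exp B := by
    have := val_inv_le665 hb₀low
    rwa [neg_neg] at this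
  have ha₀v : Valued.v a₀ ≤ WithZero.exp (B + B₁) := by
    have e : a₀ = -p / t - (-p / t - a₀) := by ring
    rw [e]
    refine (Valuation.map_sub _ _ _).trans (max_le hva (val_le_of_le665 ha₀ ?_))
    omega
  -- the element of `U(n)`
  have hune : 1 / b₀ * (1 / t) ≠ 0 := mul_ne_zero (one_div_ne_zero hb₀0) hbne
  have hu' : (up665 a₀ b₀ hb₀0)⁻¹ * (up665 p t ht0)⁻¹
      = up665 (-p / t + -a₀ / b₀ * (1 / t)) (1 / b₀ * (1 / t)) hune := by
    rw [hyinv, up_inv665 a₀ b₀ hb₀0, up_mul665]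
  have hU : InU n ((up665 a₀ b₀ hb₀0)⁻¹ * (up665 p t ht0)⁻¹) := by
    rw [hu']
    apply up_inU665
    · have e : -p / t + -a₀ / b₀ * (1 / t)
          = (-p / t - a₀) - a₀ * ((1 / t - b₀) * b₀⁻¹) := by
        field_simp
        ring
      rw [e]
      refine (Valuation.map_sub _ _ _).trans (max_le (val_le_of_le665 ha₀ ?_) ?_)
      · omega
      · refine val_le_of_le665 (val_mul_le665 ha₀v (val_mul_le665 hb₀ hb₀inv)) ?_
        omega
    · have e : 1 / b₀ * (1 / t) - 1 = (1 / t - b₀) * b₀⁻¹ := by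
        field_simp
      rw [e]
      refine val_le_of_le665 (val_mul_le665 hb₀ hb₀inv) ?_
      omega
    · rw [map_mul, one_div, map_inv₀, hb₀v]
      exact inv_mul_cancel₀ ((Valuation.ne_zero_iff _).2 hbne)
  -- the frame
  have hframe : g₀ * glAut s (up665 p t ht0) = up665 p t ht0 * δ₀ :=
    frame665 s (i z) g₀ δ₀ hδ hnorm ht0
  rw [hg₀] at hframe
  refine ⟨x * up665 p t ht0, up665 a₀ b₀ hb₀0,
    (up665 a₀ b₀ hb₀0)⁻¹ * (up665 p t ht0)⁻¹, inTwCent_of_frame665 s δ₀ x _ hframe, ?_, hU, ?_⟩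
  · refine Finset.mem_image.2 ⟨(a₀, b₀), Finset.mem_product.2 ⟨ha₀S, hb₀S⟩, ?_⟩
    simp only
    rw [dif_pos hb₀0]
  · group

end Fermat.Agent.LT.T6.H665

end
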